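/-
S31 (helper75): the leaf `HALeaf N p S` of the S31 top (`Fermat/Agent/S31/H34/Leaves.lean`),
verbatim, for every prime `p` and EVERY finite set `S` (no hypothesis on the primes of `N`).
It is the conjunction of helper40's landed `heckeAction` (`S31/H40/HeckeLattice.lean`) and
`exists_saturation` (`S31/H40/Saturation.lean`); an independent construction of the same action
(under `hNS`) is in `S31/H75/HeckeAction.lean`.
-/
import Mathlib
import Fermat.Agent.S31.H34.Leaves
import Fermat.Agent.S31.H40.Saturation

set_option autoImplicit false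

namespace Fermat.Agent.S31.H75

/-- **(HA)** the Hecke algebra of forms acts on the integral parabolic lattice through
`T_ℓ ↦ heckeHom N ℓ ℤ`, with a saturation exponent. -/
theorem haLeaf (N p : ℕ) [NeZero N] (hp : p.Prime) (S : Finset ℕ) :
    Fermat.Agent.S31.H34.HALeaf N p S := by
  obtain ⟨c, hc⟩ := Fermat.Agent.S31.H40.exists_saturation N (↑S : Set ℕ) p hp
  exact ⟨Fermat.Agent.S31.H40.heckeAction N (↑S : Set ℕ), c,
    fun ℓ hℓ hℓN hℓS ψ => Fermat.Agent.S31.H40.heckeAction_T_apply N (↑S : Set ℕ) hℓ hℓN hℓS ψ,
    hc⟩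

end Fermat.Agent.S31.H75
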