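/-
S31 (helper75), leaf (CMP) + (AR) of the chain #1937/#1940/#1943: the DICTIONARY between the
Hecke operators on the integral lattice `L(N) = Hom_par(Γ₀(N), ℤ)` and the Prelude Hecke
algebra of weight-2 cusp forms, with the saturation exponent.

* `Lat N`, `heckeL N ℓ : Module.End ℤ (Lat N)`;
* `lam N : ℂ ⊗[ℤ] Lat N →ₗ[ℂ] Hom(Γ₀(N), ℂ)` and (SPAN) `exists_lam_eq`: every parabolic
  complex hom is in its range;
* `pairAlg N S`: the `ℤ`-subalgebra of `End_ℂ(S₂(Γ₀(N))) × End_ℤ(L(N))` generated by the pairs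
  `(T_ℓ, heckeL ℓ)`, `ℓ ∤ N`, `ℓ ∉ S`;
* (CMP) `fst_eq_zero_of_snd_eq_zero`: an element of `pairAlg` whose lattice component vanishes
  has vanishing form component (landed `S21.result` + `S16.H75.periodHomPair_formOp`);
* (CMP+AR) `exists_sat_pairAlg`: there is `c` such that for `x ∈ pairAlg N S` with
  `x.2 (L) ⊆ p ^ (m + c) L` the form component `x.1` is `p ^ m` times an element of the Prelude
  Hecke algebra `heckeAlgebra N 2 S`.
-/
import Mathlib
import Fermat.Agent.S31.H75.Sat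
import Fermat.Agent.S16.H75.Gamma0Hecke
import Fermat.Agent.S41.H26.ParabolicHecke
import Fermat.Agent.S41.H40.Lattice
import Fermat.Agent.S41.H40.FormsOfBetti
import Fermat.Agent.S21

set_option autoImplicit false

open CongruenceSubgroup ModularCurve ModularCurve.Period CuspForm
open scoped MatrixGroups TensorProduct
open Fermat.Agent.S16.H75 (heckeHom formOp)
open Fermat.Agent.S41.H40 (castC heckeLin)

namespace Fermat.Agent.S31.H75

/-- The integral lattice `L(N) = Hom_par(Γ₀(N), ℤ)`. -/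
abbrev Lat (N : ℕ) : Submodule ℤ (Additive (Gamma0 N) →+ ℤ) := parabolicHoms ℤ (Gamma0 N) ℤ

/-- The Hecke operator `T_ℓ` on the lattice. -/
noncomputable def heckeL (N : ℕ) (ℓ : Nat.Primes) : Module.End ℤ (Lat N) :=
  ((heckeHom N ℓ ℤ).toIntLinearMap).restrict
    (fun _ hψ => Fermat.Agent.S41.H26.isParabolicHom_heckeHom N ℓ hψ)

@[simp] theorem coe_heckeL (N : ℕ) (ℓ : Nat.Primes) (ψ : Lat N) :
    ((heckeL N ℓ ψ : Lat N) : Additive (Gamma0 N) →+ ℤ) = heckeHom N ℓ ℤ (ψ : _) := rfl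

/-- The complexification map `ℂ ⊗ L(N) → Hom(Γ₀(N), ℂ)`. -/
noncomputable def lam (N : ℕ) : ℂ ⊗[ℤ] Lat N →ₗ[ℂ] (Additive (Gamma0 N) →+ ℂ) :=
  LinearMap.liftBaseChange ℂ ((castC N).toIntLinearMap ∘ₗ (Lat N).subtype)

@[simp] theorem lam_tmul (N : ℕ) (c : ℂ) (ψ : Lat N) :
    lam N (c ⊗ₜ[ℤ] ψ) = c • castC N (ψ : _) := by
  rw [lam, LinearMap.liftBaseChange_tmul]
  rfl

/-- `lam` intertwines the Hecke operators. -/
theorem lam_baseChange_heckeL (N : ℕ) (ℓ : Nat.Primes) (a : ℂ ⊗[ℤ] Lat N) :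
    lam N ((heckeL N ℓ).baseChange ℂ a) = heckeHom N ℓ ℂ (lam N a) := by
  induction a using TensorProduct.induction_on with
  | zero => rw [map_zero, map_zero, map_zero]
  | tmul c ψ =>
    rw [LinearMap.baseChange_tmul, lam_tmul, lam_tmul, coe_heckeL,
      ← Fermat.Agent.S41.H40.heckeHom_castC, ← Fermat.Agent.S41.H40.heckeLin_apply,
      ← Fermat.Agent.S41.H40.heckeLin_apply, map_smul]
  | add x y hx hy => rw [map_add, map_add, hx, hy, map_add, map_add]

/-! ### (SPAN) -/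

/-- **(SPAN).** Every parabolic hom `Γ₀(N) → ℂ` is a complex combination of integral parabolic
homs. -/
theorem exists_lam_eq (N : ℕ) [NeZero N] (v : Additive (Gamma0 N) →+ ℂ)
    (hv : IsParabolicHom (Gamma0 N) v) : ∃ a : ℂ ⊗[ℤ] Lat N, lam N a = v := by
  classical
  obtain ⟨X, hX, hfin⟩ := Group.fg_iff.1 (Fermat.Agent.S22.H75.fg_Gamma0 N)
  -- the finitely generated subgroup of values
  let V : Submodule ℤ ℂ := Submodule.span ℤ ((fun g : Gamma0 N => v (Additive.ofMul g)) '' X)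
  have hVfin : Module.Finite ℤ V := Module.Finite.span_of_finite ℤ (hfin.image _)
  have hmem : ∀ γ : Gamma0 N, v (Additive.ofMul γ) ∈ V := by
    intro γ
    have hγ : γ ∈ Subgroup.closure X := by rw [hX]; trivial
    induction hγ using Subgroup.closure_induction with
    | mem g hg => exact Submodule.subset_span ⟨g, hg, rfl⟩
    | one => rw [ofMul_one, map_zero]; exact V.zero_mem
    | mul a b _ _ ha hb => rw [ofMul_mul, map_add]; exact V.add_mem ha hb
    | inv a _ ha => rw [ofMul_inv, map_neg]; exact V.neg_mem ha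
  have hfree : Module.Free ℤ V := Module.free_of_finite_type_torsion_free'
  let b := Module.Free.chooseBasis ℤ V
  -- the corestriction of `v`
  let v' : Additive (Gamma0 N) →+ V :=
    { toFun := fun γ => ⟨v γ, hmem (Additive.toMul γ)⟩
      map_zero' := Subtype.ext (map_zero v)
      map_add' := fun x y => Subtype.ext (map_add v x y) }
  -- the coordinate homs
  let φ : Module.Free.ChooseBasisIndex ℤ V → (Additive (Gamma0 N) →+ ℤ) := fun j =>
    ((b.coord j : V →ₗ[ℤ] ℤ) : V →+ ℤ).comp v'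
  have hφ : ∀ j, φ j ∈ Lat N := by
    intro j γ hγ
    show b.coord j (v' (Additive.ofMul γ)) = 0
    have h0 : v' (Additive.ofMul γ) = 0 := Subtype.ext (hv γ hγ)
    rw [h0, map_zero]
  refine ⟨∑ j, ((b j : V) : ℂ) ⊗ₜ[ℤ] (⟨φ j, hφ j⟩ : Lat N), ?_⟩
  rw [map_sum]
  refine AddMonoidHom.ext fun γ => ?_
  simp only [lam_tmul]
  rw [AddMonoidHom.finsetSum_apply]
  have h1 : ∀ j, ((((b j : V) : ℂ) • castC N (φ j)) γ : ℂ)
      = (((b.repr (v' γ) j) • (b j : V) : V) : ℂ) := by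
    intro j
    show ((b j : V) : ℂ) * ((b.coord j (v' γ) : ℤ) : ℂ) = _
    rw [Submodule.coe_smul, zsmul_eq_mul, mul_comm]
    rfl
  rw [Finset.sum_congr rfl fun j _ => h1 j, ← Submodule.coe_sum, b.sum_repr]
  rfl

/-! ### The pair algebra and (CMP) -/

/-- The generating pairs `(T_ℓ on forms, T_ℓ on the lattice)`, `ℓ ∤ N`, `ℓ ∉ S`. -/
def heckePairs (N : ℕ) [NeZero N] (S : Set ℕ) :
    Set (Module.End ℂ (CuspForm (Gamma0 N) 2) × Module.End ℤ (Lat N)) :=
  {x | ∃ (ℓ : ℕ) (hℓ : ℓ.Prime) (hℓN : ¬ ℓ ∣ N), ℓ ∉ S ∧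
    x = (heckeTLin 2 hℓ hℓN, heckeL N (⟨ℓ, hℓ⟩ : Nat.Primes))}

/-- The `ℤ`-algebra generated by the pairs `(T_ℓ, heckeL ℓ)`. -/
def pairAlg (N : ℕ) [NeZero N] (S : Set ℕ) :
    Subalgebra ℤ (Module.End ℂ (CuspForm (Gamma0 N) 2) × Module.End ℤ (Lat N)) :=
  Algebra.adjoin ℤ (heckePairs N S)

theorem pair_mem_pairAlg {N : ℕ} [NeZero N] {S : Set ℕ} {ℓ : ℕ} (hℓ : ℓ.Prime) (hℓN : ¬ ℓ ∣ N)
    (hℓS : ℓ ∉ S) :
    ((heckeTLin 2 hℓ hℓN, heckeL N (⟨ℓ, hℓ⟩ : Nat.Primes)) :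
      Module.End ℂ (CuspForm (Gamma0 N) 2) × Module.End ℤ (Lat N)) ∈ pairAlg N S :=
  Algebra.subset_adjoin ⟨ℓ, hℓ, hℓN, hℓS, rfl⟩

/-- The correspondence relation between an operator on forms and an operator on the lattice. -/
def Rel (N : ℕ) (t : Module.End ℂ (CuspForm (Gamma0 N) 2)) (D : Module.End ℤ (Lat N)) : Prop :=
  ∀ (f g : CuspForm (Gamma0 N) 2) (a : ℂ ⊗[ℤ] Lat N),
    periodHomPair N (f, g) = lam N a → periodHomPair N (t f, t g) = lam N (D.baseChange ℂ a)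

theorem rel_gen {N : ℕ} [NeZero N] {ℓ : ℕ} (hℓ : ℓ.Prime) (hℓN : ¬ ℓ ∣ N) :
    Rel N (heckeTLin 2 hℓ hℓN) (heckeL N (⟨ℓ, hℓ⟩ : Nat.Primes)) := by
  intro f g a h
  refine Eq.trans ?_ (lam_baseChange_heckeL N (⟨ℓ, hℓ⟩ : Nat.Primes) a).symm
  have e := Fermat.Agent.S16.H75.periodHomPair_formOp N (⟨ℓ, hℓ⟩ : Nat.Primes) f g
  rw [Fermat.Agent.S41.H40.formOp_of_not_dvd hℓ hℓN f,
    Fermat.Agent.S41.H40.formOp_of_not_dvd hℓ hℓN g] at e
  rw [← h]
  exact e

theorem rel_algebraMap (N : ℕ) (r : ℤ) :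
    Rel N (algebraMap ℤ (Module.End ℂ (CuspForm (Gamma0 N) 2)) r)
      (algebraMap ℤ (Module.End ℤ (Lat N)) r) := by
  intro f g a h
  have h1 : ∀ f : CuspForm (Gamma0 N) 2,
      (algebraMap ℤ (Module.End ℂ (CuspForm (Gamma0 N) 2)) r) f = (r : ℂ) • f := by
    intro f
    rw [Algebra.algebraMap_eq_smul_one, LinearMap.smul_apply, Module.End.one_apply,
      Int.cast_smul_eq_zsmul]
  have h2 : (algebraMap ℤ (Module.End ℤ (Lat N)) r).baseChange ℂ a = (r : ℂ) • a := by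
    rw [Algebra.algebraMap_eq_smul_one, LinearMap.baseChange_smul, LinearMap.baseChange_one,
      LinearMap.smul_apply, Module.End.one_apply, Int.cast_smul_eq_zsmul]
  rw [h1, h1, h2, map_smul, ← h, ← map_smul, Prod.smul_mk]

theorem rel_add {N : ℕ} {t t' : Module.End ℂ (CuspForm (Gamma0 N) 2)}
    {D D' : Module.End ℤ (Lat N)} (h : Rel N t D) (h' : Rel N t' D') :
    Rel N (t + t') (D + D') := by
  intro f g a ha
  have e1 := h f g a ha
  have e2 := h' f g a ha
  show periodHomPair N ((t f, t g) + (t' f, t' g)) = lam N ((D + D').baseChange ℂ a)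
  rw [map_add, e1, e2, LinearMap.baseChange_add, LinearMap.add_apply, map_add]

theorem rel_mul {N : ℕ} {t t' : Module.End ℂ (CuspForm (Gamma0 N) 2)}
    {D D' : Module.End ℤ (Lat N)} (h : Rel N t D) (h' : Rel N t' D') :
    Rel N (t * t') (D * D') := by
  intro f g a ha
  rw [LinearMap.baseChange_mul]
  exact h (t' f) (t' g) _ (h' f g a ha)

/-- Every element of the pair algebra satisfies the correspondence relation. -/
theorem rel_of_mem_pairAlg {N : ℕ} [NeZero N] {S : Set ℕ}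
    {x : Module.End ℂ (CuspForm (Gamma0 N) 2) × Module.End ℤ (Lat N)} (hx : x ∈ pairAlg N S) :
    Rel N x.1 x.2 := by
  induction hx using Algebra.adjoin_induction with
  | mem x hx =>
    obtain ⟨ℓ, hℓ, hℓN, -, rfl⟩ := hx
    exact rel_gen hℓ hℓN
  | algebraMap r => exact rel_algebraMap N r
  | add x y _ _ hx hy => exact rel_add hx hy
  | mul x y _ _ hx hy => exact rel_mul hx hy

/-- **(CMP).** An element of the pair algebra whose lattice component vanishes has vanishing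
form component. -/
theorem fst_eq_zero_of_snd_eq_zero {N : ℕ} [NeZero N] {S : Set ℕ}
    {x : Module.End ℂ (CuspForm (Gamma0 N) 2) × Module.End ℤ (Lat N)} (hx : x ∈ pairAlg N S)
    (h0 : x.2 = 0) : x.1 = 0 := by
  obtain ⟨hinj, hrange⟩ := Fermat.Agent.S21.result N
  have hrel := rel_of_mem_pairAlg hx
  refine LinearMap.ext fun f => ?_
  have hpar : IsParabolicHom (Gamma0 N) (periodHomPair N (f, f)) := by
    have : periodHomPair N (f, f) ∈ LinearMap.range (periodHomPair N) := ⟨_, rfl⟩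
    rw [hrange] at this
    exact this
  obtain ⟨a, ha⟩ := exists_lam_eq N _ hpar
  have h1 := hrel f f a ha.symm
  rw [h0, LinearMap.baseChange_zero, LinearMap.zero_apply, map_zero] at h1
  have h2 : (x.1 f, x.1 f) = (0 : CuspForm (Gamma0 N) 2 × CuspForm (Gamma0 N) 2) :=
    hinj (by rw [h1, map_zero])
  exact congrArg Prod.fst h2

/-- The form components of the pair algebra lie in the Prelude Hecke algebra. -/
theorem fst_mem_heckeAlgebra {N : ℕ} [NeZero N] {S : Set ℕ}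
    {x : Module.End ℂ (CuspForm (Gamma0 N) 2) × Module.End ℤ (Lat N)} (hx : x ∈ pairAlg N S) :
    x.1 ∈ heckeAlgebra N 2 S := by
  induction hx using Algebra.adjoin_induction with
  | mem x hx =>
    obtain ⟨ℓ, hℓ, hℓN, hℓS, rfl⟩ := hx
    exact heckeTLin_mem_heckeAlgebra hℓ hℓN hℓS
  | algebraMap r => exact (heckeAlgebra N 2 S).algebraMap_mem r
  | add x y _ _ hx hy => exact (heckeAlgebra N 2 S).add_mem hx hy
  | mul x y _ _ hx hy => exact (heckeAlgebra N 2 S).mul_mem hx hy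

instance finite_Lat (N : ℕ) [NeZero N] : Module.Finite ℤ (Lat N) :=
  Fermat.Agent.S41.H40.finite_parabolicHoms_int N

instance isAddTorsionFree_Lat (N : ℕ) : IsAddTorsionFree (Lat N) :=
  ⟨fun n hn ψ φ h => Subtype.ext (AddMonoidHom.ext fun x => by
    have := DFunLike.congr_fun (congrArg Subtype.val h) x
    simpa [hn] using this)⟩

/-- **(CMP) + (AR).** There is an exponent `c` (depending on `N`, `S`, `p` only) such that for
every element `x` of the pair algebra whose lattice component maps `L(N)` into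
`p ^ (m + c) L(N)`, the form component is `p ^ m` times an element of the Prelude Hecke algebra
`heckeAlgebra N 2 S`. -/
theorem exists_sat_pairAlg (N : ℕ) [NeZero N] (S : Set ℕ) {p : ℕ} (hp : p ≠ 0) :
    ∃ c : ℕ, ∀ (m : ℕ) (x : Module.End ℂ (CuspForm (Gamma0 N) 2) × Module.End ℤ (Lat N)),
      x ∈ pairAlg N S → (∀ ψ : Lat N, ∃ φ : Lat N, x.2 ψ = (p : ℤ) ^ (m + c) • φ) →
      ∃ t : heckeAlgebra N 2 S,
        x.1 = ((p : ℤ) ^ m • t : heckeAlgebra N 2 S) := by
  have hp' : (p : ℤ) ≠ 0 := by exact_mod_cast hp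
  obtain ⟨c, hc⟩ := exists_sat_exponent_end (Lat N)
    (Subalgebra.toSubmodule ((pairAlg N S).map
      (AlgHom.snd ℤ (Module.End ℂ (CuspForm (Gamma0 N) 2)) (Module.End ℤ (Lat N))))) hp'
  refine ⟨c, fun m x hx h => ?_⟩
  obtain ⟨D', hD', hD⟩ := hc m x.2 ⟨x, hx, rfl⟩ h
  obtain ⟨y, hy, rfl⟩ := hD'
  have hz : x - (p : ℤ) ^ m • y ∈ pairAlg N S :=
    (pairAlg N S).sub_mem hx ((pairAlg N S).smul_mem hy _)
  have hz0 : (x - (p : ℤ) ^ m • y).2 = 0 := by
    rw [Prod.snd_sub, Prod.smul_snd, hD, sub_eq_zero]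
    rfl
  have hz1 := fst_eq_zero_of_snd_eq_zero hz hz0
  rw [Prod.fst_sub, Prod.smul_fst, sub_eq_zero] at hz1
  exact ⟨⟨y.1, fst_mem_heckeAlgebra hy⟩, hz1⟩

end Fermat.Agent.S31.H75
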