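/-
S31 (helper75): the Hecke action of the Prelude Hecke algebra `heckeAlgebra N 2 S` on the
integral lattice `L(N) = Hom_par(Γ₀(N), ℤ)`, as an INJECTIVE ring homomorphism, with the
saturation exponent.  (The shape (HA1)/(HA2) of #1985; consumers: S31 step (d), S30 step (d).)

Hypothesis `hNS : ∀ q, q.Prime → q ∣ N → q ∈ S` (as in the frozen S30/S31): then
`heckeAlgebra N 2 S` is generated by the `T_ℓ`, `ℓ ∤ N`, `ℓ ∉ S`, and the pair algebra of
`Cmp.lean` is the graph of a ring isomorphism onto its image.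

* `snd_eq_zero_of_fst_eq_zero`: the converse of (CMP);
* `heckeAction N S hNS : heckeAlgebra N 2 S →ₐ[ℤ] Module.End ℤ (Lat N)`;
* `heckeAction_T`: `heckeAction (T_ℓ) ψ = heckeHom N ℓ ℤ ψ`;
* `heckeAction_injective`;
* `exists_saturation`: `∃ c, ∀ n f, (∀ ψ, ∃ φ, heckeAction f ψ = p ^ (n + c) • φ) →
  ∃ f', f = p ^ n • f'`;
* `exists_heckeAction`: the existential packaging.
-/
import Mathlib
import Fermat.Agent.S31.H75.Cmp

set_option autoImplicit false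

open CongruenceSubgroup ModularCurve ModularCurve.Period CuspForm
open scoped MatrixGroups TensorProduct
open Fermat.Agent.S16.H75 (heckeHom formOp)
open Fermat.Agent.S41.H40 (castC heckeLin)

namespace Fermat.Agent.S31.H75

/-- The converse of (CMP): an element of the pair algebra whose form component vanishes has
vanishing lattice component. -/
theorem snd_eq_zero_of_fst_eq_zero {N : ℕ} [NeZero N] {S : Set ℕ}
    {x : Module.End ℂ (CuspForm (Gamma0 N) 2) × Module.End ℤ (Lat N)} (hx : x ∈ pairAlg N S)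
    (h0 : x.1 = 0) : x.2 = 0 := by
  obtain ⟨-, hrange⟩ := Fermat.Agent.S21.result N
  have hrel := rel_of_mem_pairAlg hx
  refine LinearMap.ext fun ψ => ?_
  have hpar : castC N (ψ : Additive (Gamma0 N) →+ ℤ) ∈ LinearMap.range (periodHomPair N) := by
    rw [hrange]
    exact Fermat.Agent.S41.H40.isParabolicHom_castC ψ.2
  obtain ⟨⟨f, g⟩, hfg⟩ := hpar
  have h1 := hrel f g ((1 : ℂ) ⊗ₜ[ℤ] ψ) (by rw [hfg, lam_tmul, one_smul])
  rw [h0, LinearMap.zero_apply, LinearMap.zero_apply, LinearMap.baseChange_tmul, lam_tmul,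
    one_smul] at h1
  have h2 : periodHomPair N ((0 : CuspForm (Gamma0 N) 2), (0 : CuspForm (Gamma0 N) 2)) = 0 :=
    map_zero _
  rw [h2] at h1
  have h3 : ((x.2 ψ : Lat N) : Additive (Gamma0 N) →+ ℤ) = 0 :=
    Fermat.Agent.S41.H40.castC_injective N (by rw [← h1, map_zero])
  exact Subtype.ext h3

/-- Under `hNS`, the Prelude Hecke algebra is the set of form components of the pair algebra. -/
theorem heckeAlgebra_eq_map_fst {N : ℕ} [NeZero N] {S : Set ℕ}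
    (hNS : ∀ q : ℕ, q.Prime → q ∣ N → q ∈ S) :
    heckeAlgebra N 2 S = (pairAlg N S).map
      (AlgHom.fst ℤ (Module.End ℂ (CuspForm (Gamma0 N) 2)) (Module.End ℤ (Lat N))) := by
  rw [pairAlg, AlgHom.map_adjoin, heckeAlgebra]
  congr 1
  ext T
  constructor
  · rintro (⟨ℓ, hℓ, hℓN, hℓS, rfl⟩ | ⟨q, hqN, hq, hqS, rfl⟩)
    · exact ⟨_, ⟨ℓ, hℓ, hℓN, hℓS, rfl⟩, rfl⟩
    · exact absurd (hNS q hq hqN) hqS
  · rintro ⟨_, ⟨ℓ, hℓ, hℓN, hℓS, rfl⟩, rfl⟩
    exact Or.inl ⟨ℓ, hℓ, hℓN, hℓS, rfl⟩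

/-- The first projection of the pair algebra, as a map to the Prelude Hecke algebra. -/
noncomputable def fstHom (N : ℕ) [NeZero N] (S : Set ℕ) : pairAlg N S →ₐ[ℤ] heckeAlgebra N 2 S :=
  AlgHom.codRestrict
    ((AlgHom.fst ℤ (Module.End ℂ (CuspForm (Gamma0 N) 2)) (Module.End ℤ (Lat N))).comp
      (pairAlg N S).val)
    (heckeAlgebra N 2 S) (fun x => fst_mem_heckeAlgebra x.2)

theorem coe_fstHom {N : ℕ} [NeZero N] {S : Set ℕ} (x : pairAlg N S) :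
    ((fstHom N S x : heckeAlgebra N 2 S) : Module.End ℂ (CuspForm (Gamma0 N) 2)) =
      (x : Module.End ℂ (CuspForm (Gamma0 N) 2) × Module.End ℤ (Lat N)).1 := rfl

theorem fstHom_bijective {N : ℕ} [NeZero N] {S : Set ℕ}
    (hNS : ∀ q : ℕ, q.Prime → q ∣ N → q ∈ S) : Function.Bijective (fstHom N S) := by
  constructor
  · rw [injective_iff_map_eq_zero]
    intro x hx
    have h1 : (x : Module.End ℂ (CuspForm (Gamma0 N) 2) × Module.End ℤ (Lat N)).1 = 0 := by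
      rw [← coe_fstHom, hx]
      rfl
    have h2 := snd_eq_zero_of_fst_eq_zero x.2 h1
    exact Subtype.ext (Prod.ext h1 h2)
  · intro f
    have hf : (f : Module.End ℂ (CuspForm (Gamma0 N) 2)) ∈ (pairAlg N S).map
        (AlgHom.fst ℤ (Module.End ℂ (CuspForm (Gamma0 N) 2)) (Module.End ℤ (Lat N))) := by
      rw [← heckeAlgebra_eq_map_fst hNS]
      exact f.2
    obtain ⟨x, hx, hxf⟩ := hf
    exact ⟨⟨x, hx⟩, Subtype.ext hxf⟩

/-- **The Hecke action on the lattice**: the ring homomorphism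
`heckeAlgebra N 2 S → End_ℤ(L(N))` sending `T_ℓ` to `heckeHom N ℓ ℤ`. -/
noncomputable def heckeAction (N : ℕ) [NeZero N] (S : Set ℕ)
    (hNS : ∀ q : ℕ, q.Prime → q ∣ N → q ∈ S) :
    heckeAlgebra N 2 S →ₐ[ℤ] Module.End ℤ (Lat N) :=
  ((AlgHom.snd ℤ (Module.End ℂ (CuspForm (Gamma0 N) 2)) (Module.End ℤ (Lat N))).comp
    (pairAlg N S).val).comp
    (AlgEquiv.ofBijective (fstHom N S) (fstHom_bijective hNS)).symm.toAlgHom

/-- The graph of `heckeAction` is the pair algebra. -/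
theorem pair_heckeAction_mem {N : ℕ} [NeZero N] {S : Set ℕ}
    (hNS : ∀ q : ℕ, q.Prime → q ∣ N → q ∈ S) (f : heckeAlgebra N 2 S) :
    ((f : Module.End ℂ (CuspForm (Gamma0 N) 2)), heckeAction N S hNS f) ∈ pairAlg N S := by
  set e := AlgEquiv.ofBijective (fstHom N S) (fstHom_bijective hNS) with he
  have h1 : fstHom N S (e.symm f) = f := by
    have := e.apply_symm_apply f
    rwa [he, AlgEquiv.ofBijective_apply] at this
  have h2 : ((e.symm f : pairAlg N S) :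
      Module.End ℂ (CuspForm (Gamma0 N) 2) × Module.End ℤ (Lat N)) =
      ((f : Module.End ℂ (CuspForm (Gamma0 N) 2)), heckeAction N S hNS f) := by
    refine Prod.ext ?_ rfl
    rw [← coe_fstHom, h1]
  rw [← h2]
  exact (e.symm f).2

theorem heckeAction_eq_of_mem {N : ℕ} [NeZero N] {S : Set ℕ}
    (hNS : ∀ q : ℕ, q.Prime → q ∣ N → q ∈ S) (f : heckeAlgebra N 2 S)
    {D : Module.End ℤ (Lat N)}
    (h : ((f : Module.End ℂ (CuspForm (Gamma0 N) 2)), D) ∈ pairAlg N S) :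
    heckeAction N S hNS f = D := by
  have h1 := (pairAlg N S).sub_mem (pair_heckeAction_mem hNS f) h
  have h2 := snd_eq_zero_of_fst_eq_zero h1 (by rw [Prod.fst_sub]; exact sub_self _)
  rw [Prod.snd_sub] at h2
  exact sub_eq_zero.mp h2

/-- `heckeAction (T_ℓ) = heckeL ℓ`. -/
theorem heckeAction_T' {N : ℕ} [NeZero N] {S : Set ℕ}
    (hNS : ∀ q : ℕ, q.Prime → q ∣ N → q ∈ S) {ℓ : ℕ} (hℓ : ℓ.Prime) (hℓN : ¬ ℓ ∣ N)
    (hℓS : ℓ ∉ S) :
    heckeAction N S hNS (heckeAlgebra.T hℓ hℓN hℓS) = heckeL N (⟨ℓ, hℓ⟩ : Nat.Primes) :=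
  heckeAction_eq_of_mem hNS _ (pair_mem_pairAlg hℓ hℓN hℓS)

/-- `heckeAction (T_ℓ) ψ = heckeHom N ℓ ℤ ψ`. -/
theorem heckeAction_T {N : ℕ} [NeZero N] {S : Set ℕ}
    (hNS : ∀ q : ℕ, q.Prime → q ∣ N → q ∈ S) {ℓ : ℕ} (hℓ : ℓ.Prime) (hℓN : ¬ ℓ ∣ N)
    (hℓS : ℓ ∉ S) (ψ : Lat N) :
    ((heckeAction N S hNS (heckeAlgebra.T hℓ hℓN hℓS) ψ : Lat N) : Additive (Gamma0 N) →+ ℤ) =
      heckeHom N (⟨ℓ, hℓ⟩ : Nat.Primes) ℤ (ψ : Additive (Gamma0 N) →+ ℤ) := by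
  rw [heckeAction_T' hNS hℓ hℓN hℓS]
  rfl

/-- **Faithfulness.** -/
theorem heckeAction_injective {N : ℕ} [NeZero N] {S : Set ℕ}
    (hNS : ∀ q : ℕ, q.Prime → q ∣ N → q ∈ S) : Function.Injective (heckeAction N S hNS) := by
  rw [injective_iff_map_eq_zero]
  intro f hf
  have h1 := pair_heckeAction_mem hNS f
  exact Subtype.ext (fst_eq_zero_of_snd_eq_zero h1 hf)

/-- **Saturation** ((CMP) + (AR) in the ring-hom shape): there is `c` such that every `f` in the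
Hecke algebra whose action maps `L(N)` into `p ^ (n + c) L(N)` is divisible by `p ^ n` in the
Hecke algebra. -/
theorem exists_saturation (N : ℕ) [NeZero N] (S : Set ℕ)
    (hNS : ∀ q : ℕ, q.Prime → q ∣ N → q ∈ S) {p : ℕ} (hp : p ≠ 0) :
    ∃ c : ℕ, ∀ (n : ℕ) (f : heckeAlgebra N 2 S),
      (∀ ψ : Lat N, ∃ φ : Lat N, heckeAction N S hNS f ψ = (p : ℤ) ^ (n + c) • φ) →
      ∃ f' : heckeAlgebra N 2 S, f = (p : ℤ) ^ n • f' := by
  obtain ⟨c, hc⟩ := exists_sat_pairAlg N S hp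
  refine ⟨c, fun n f h => ?_⟩
  obtain ⟨t, ht⟩ := hc n _ (pair_heckeAction_mem hNS f) h
  exact ⟨t, Subtype.ext ht⟩

/-- Existential packaging of the Hecke action ((HA1) of #1985). -/
theorem exists_heckeAction (N : ℕ) [NeZero N] (S : Set ℕ)
    (hNS : ∀ q : ℕ, q.Prime → q ∣ N → q ∈ S) :
    ∃ Φ : heckeAlgebra N 2 S →+* Module.End ℤ (Lat N), Function.Injective Φ ∧
      ∀ (ℓ : ℕ) (hℓ : ℓ.Prime) (hℓN : ¬ ℓ ∣ N) (hℓS : ℓ ∉ S) (ψ : Lat N),
        ((Φ (heckeAlgebra.T hℓ hℓN hℓS) ψ : Lat N) : Additive (Gamma0 N) →+ ℤ) =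
          heckeHom N (⟨ℓ, hℓ⟩ : Nat.Primes) ℤ (ψ : Additive (Gamma0 N) →+ ℤ) :=
  ⟨(heckeAction N S hNS).toRingHom, heckeAction_injective hNS,
    fun _ hℓ hℓN hℓS ψ => heckeAction_T hNS hℓ hℓN hℓS ψ⟩

end Fermat.Agent.S31.H75
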