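/-
S31 (helper75): step (d) of the chain #1937 in its final, Lucas-polynomial shape.

For good primes `ℓ, ℓ'` and exponents `i, i'`: if the operator
`V_i(T_ℓ, ℓ) - V_i'(T_ℓ', ℓ')` (Lucas polynomials in the Hecke operators `heckeHom` on the lattice
`L(N) = Hom_par(Γ₀(N), ℤ)`) maps `L(N)` into `p ^ (m + c) L(N)`, then the same expression in the
Prelude Hecke algebra `heckeAlgebra N 2 S` is `p ^ m` times an element of the Hecke algebra.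

* `heckeLAdd N ℓ : AddMonoid.End (Lat N)`: the Hecke operator on the lattice as an additive
  endomorphism (the shape consumed by `H35.lucasV_semiconj`);
* `endToAdd`: the ring hom `Module.End ℤ M →+* AddMonoid.End M`;
* `heckeAction_lucasV`, `exists_sat_lucas` (the corollary), `exists_sat_lucas_pi` (after a ring
  hom `π : heckeAlgebra N 2 S →+* T`).
-/
import Mathlib
import Fermat.Agent.S31.H75.HeckeAction
import Fermat.Agent.S31.H35.Lucas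

set_option autoImplicit false

open CongruenceSubgroup ModularCurve ModularCurve.Period CuspForm
open scoped MatrixGroups
open Fermat.Agent.S16.H75 (heckeHom)
open Fermat.Agent.S31.H35 (lucasV map_lucasV)

namespace Fermat.Agent.S31.H75

/-- The ring hom `End_ℤ(M) → End(M)` forgetting `ℤ`-linearity. -/
def endToAdd (M : Type*) [AddCommGroup M] : Module.End ℤ M →+* AddMonoid.End M where
  toFun f := f.toAddMonoidHom
  map_one' := rfl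
  map_mul' _ _ := rfl
  map_zero' := rfl
  map_add' _ _ := rfl

@[simp] theorem endToAdd_apply {M : Type*} [AddCommGroup M] (f : Module.End ℤ M) (x : M) :
    endToAdd M f x = f x := rfl

/-- The Hecke operator on the lattice as an additive endomorphism. -/
noncomputable def heckeLAdd (N : ℕ) (ℓ : Nat.Primes) : AddMonoid.End (Lat N) :=
  endToAdd (Lat N) (heckeL N ℓ)

@[simp] theorem coe_heckeLAdd (N : ℕ) (ℓ : Nat.Primes) (ψ : Lat N) :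
    ((heckeLAdd N ℓ ψ : Lat N) : Additive (Gamma0 N) →+ ℤ) = heckeHom N ℓ ℤ (ψ : _) := rfl

/-- The Hecke action of a Lucas polynomial in `T_ℓ`. -/
theorem heckeAction_lucasV {N : ℕ} [NeZero N] {S : Set ℕ}
    (hNS : ∀ q : ℕ, q.Prime → q ∣ N → q ∈ S) {ℓ : ℕ} (hℓ : ℓ.Prime) (hℓN : ¬ ℓ ∣ N)
    (hℓS : ℓ ∉ S) (d : ℤ) (i : ℕ) (ψ : Lat N) :
    heckeAction N S hNS (lucasV (heckeAlgebra.T hℓ hℓN hℓS) (d : heckeAlgebra N 2 S) i) ψ =
      lucasV (heckeLAdd N (⟨ℓ, hℓ⟩ : Nat.Primes)) (d : AddMonoid.End (Lat N)) i ψ := by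
  have h1 := map_lucasV (heckeAlgebra.T hℓ hℓN hℓS) (d : heckeAlgebra N 2 S)
    ((endToAdd (Lat N)).comp (heckeAction N S hNS).toRingHom) i
  have h2 : ((endToAdd (Lat N)).comp (heckeAction N S hNS).toRingHom)
      (heckeAlgebra.T hℓ hℓN hℓS) = heckeLAdd N (⟨ℓ, hℓ⟩ : Nat.Primes) := by
    show endToAdd (Lat N) (heckeAction N S hNS (heckeAlgebra.T hℓ hℓN hℓS)) = _
    rw [heckeAction_T' hNS hℓ hℓN hℓS]
    rfl
  rw [h2, map_intCast] at h1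
  rw [← h1]
  rfl

/-- **Step (d), Lucas shape.** There is `c` such that: if
`V_i(T_ℓ, ℓ) - V_i'(T_ℓ', ℓ')` on the lattice maps `L(N)` into `p ^ (m + c) L(N)`, then the same
expression in the Hecke algebra is divisible by `p ^ m`. -/
theorem exists_sat_lucas (N : ℕ) [NeZero N] (S : Set ℕ)
    (hNS : ∀ q : ℕ, q.Prime → q ∣ N → q ∈ S) {p : ℕ} (hp : p ≠ 0) :
    ∃ c : ℕ, ∀ (m : ℕ) (ℓ ℓ' : ℕ) (hℓ : ℓ.Prime) (hℓN : ¬ ℓ ∣ N) (hℓS : ℓ ∉ S)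
      (hℓ' : ℓ'.Prime) (hℓ'N : ¬ ℓ' ∣ N) (hℓ'S : ℓ' ∉ S) (d d' : ℤ) (i i' : ℕ),
      (∀ ψ : Lat N, ∃ φ : Lat N,
        lucasV (heckeLAdd N (⟨ℓ, hℓ⟩ : Nat.Primes)) (d : AddMonoid.End (Lat N)) i ψ -
          lucasV (heckeLAdd N (⟨ℓ', hℓ'⟩ : Nat.Primes)) (d' : AddMonoid.End (Lat N)) i' ψ =
            (p : ℤ) ^ (m + c) • φ) →
      ∃ t : heckeAlgebra N 2 S,
        lucasV (heckeAlgebra.T hℓ hℓN hℓS) (d : heckeAlgebra N 2 S) i -
          lucasV (heckeAlgebra.T hℓ' hℓ'N hℓ'S) (d' : heckeAlgebra N 2 S) i' =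
            (p : ℤ) ^ m • t := by
  obtain ⟨c, hc⟩ := exists_saturation N S hNS hp
  refine ⟨c, fun m ℓ ℓ' hℓ hℓN hℓS hℓ' hℓ'N hℓ'S d d' i i' h => ?_⟩
  refine hc m _ fun ψ => ?_
  obtain ⟨φ, hφ⟩ := h ψ
  refine ⟨φ, ?_⟩
  rw [map_sub, LinearMap.sub_apply, heckeAction_lucasV hNS hℓ hℓN hℓS,
    heckeAction_lucasV hNS hℓ' hℓ'N hℓ'S]
  exact hφ

/-- **Step (d)+(e), Lucas shape, after a ring hom `π` to a ring `T`:** the difference of the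
Lucas expressions in `π(T_ℓ)`, `π(T_ℓ')` is `p ^ m` times an element of `T`. -/
theorem exists_sat_lucas_pi (N : ℕ) [NeZero N] (S : Set ℕ)
    (hNS : ∀ q : ℕ, q.Prime → q ∣ N → q ∈ S) {p : ℕ} (hp : p ≠ 0) :
    ∃ c : ℕ, ∀ (T : Type) [CommRing T] (π : heckeAlgebra N 2 S →+* T) (m : ℕ) (ℓ ℓ' : ℕ)
      (hℓ : ℓ.Prime) (hℓN : ¬ ℓ ∣ N) (hℓS : ℓ ∉ S)
      (hℓ' : ℓ'.Prime) (hℓ'N : ¬ ℓ' ∣ N) (hℓ'S : ℓ' ∉ S) (d d' : ℤ) (i i' : ℕ),
      (∀ ψ : Lat N, ∃ φ : Lat N,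
        lucasV (heckeLAdd N (⟨ℓ, hℓ⟩ : Nat.Primes)) (d : AddMonoid.End (Lat N)) i ψ -
          lucasV (heckeLAdd N (⟨ℓ', hℓ'⟩ : Nat.Primes)) (d' : AddMonoid.End (Lat N)) i' ψ =
            (p : ℤ) ^ (m + c) • φ) →
      ∃ t : T,
        lucasV (π (heckeAlgebra.T hℓ hℓN hℓS)) (d : T) i -
          lucasV (π (heckeAlgebra.T hℓ' hℓ'N hℓ'S)) (d' : T) i' = (p : T) ^ m * t := by
  obtain ⟨c, hc⟩ := exists_sat_lucas N S hNS hp
  refine ⟨c, fun T _ π m ℓ ℓ' hℓ hℓN hℓS hℓ' hℓ'N hℓ'S d d' i i' h => ?_⟩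
  obtain ⟨t, ht⟩ := hc m ℓ ℓ' hℓ hℓN hℓS hℓ' hℓ'N hℓ'S d d' i i' h
  refine ⟨π t, ?_⟩
  have h1 := congrArg π ht
  rw [map_sub, map_lucasV, map_lucasV, map_intCast, map_intCast, zsmul_eq_mul, map_mul,
    map_intCast] at h1
  rw [h1]
  push_cast
  rfl

end Fermat.Agent.S31.H75
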