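/-
S31 (helper75), leaf (AR) of the chain #1937/#1940/#1943: the SATURATION EXPONENT.

Abstract, Mathlib only.

* `exists_sat_exponent`: in a Noetherian module `E`, for a submodule `A` and a scalar `p`
  there is `c` such that `p ^ (n + c) • x ∈ A` implies `p ^ c • x ∈ A` (for all `n`, `x`).
* `exists_smul_eq_of_forall`: an endomorphism of a torsion-free module all of whose values are
  divisible by `k ≠ 0` is `k` times an endomorphism.
* `isNoetherian_end`: `End_ℤ(M)` is Noetherian for a finite `ℤ`-module `M`.
* `exists_sat_exponent_end`: the combined statement for a subalgebra (or any submodule) `A` of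
  `End_ℤ(M)`, `M` finite and torsion-free: there is `c` with
  `D ∈ A`, `D M ⊆ p ^ (m + c) M`  ⟹  `D = p ^ m • D'` with `D' ∈ A`.
-/
import Mathlib

set_option autoImplicit false

namespace Fermat.Agent.S31.H75

/-- **Saturation exponent** (ascending chain argument). -/
theorem exists_sat_exponent {R : Type*} [CommRing R] {E : Type*} [AddCommGroup E] [Module R E]
    [IsNoetherian R E] (A : Submodule R E) (p : R) :
    ∃ c : ℕ, ∀ (n : ℕ) (x : E), p ^ (n + c) • x ∈ A → p ^ c • x ∈ A := by
  let f : ℕ →o Submodule R E :=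
    { toFun := fun k => A.comap (LinearMap.lsmul R E (p ^ k))
      monotone' := by
        intro k l hkl x hx
        rw [Submodule.mem_comap, LinearMap.lsmul_apply] at hx ⊢
        obtain ⟨d, rfl⟩ := Nat.exists_eq_add_of_le hkl
        rw [pow_add, mul_comm, mul_smul]
        exact A.smul_mem _ hx }
  obtain ⟨c, hc⟩ := monotone_stabilizes_iff_noetherian.mpr (inferInstance : IsNoetherian R E) f
  refine ⟨c, fun n x hx => ?_⟩
  have h1 : x ∈ f (n + c) := by
    show x ∈ A.comap (LinearMap.lsmul R E (p ^ (n + c)))
    rw [Submodule.mem_comap, LinearMap.lsmul_apply]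
    exact hx
  rw [← hc (n + c) (Nat.le_add_left c n)] at h1
  have h2 : x ∈ A.comap (LinearMap.lsmul R E (p ^ c)) := h1
  rw [Submodule.mem_comap, LinearMap.lsmul_apply] at h2
  exact h2

/-- An endomorphism of a torsion-free abelian group all of whose values are divisible by `k ≠ 0`
is `k` times an endomorphism. -/
theorem exists_smul_eq_of_forall {M : Type*} [AddCommGroup M] [IsAddTorsionFree M] {k : ℤ}
    (hk : k ≠ 0) (D : Module.End ℤ M) (h : ∀ x : M, ∃ y : M, D x = k • y) :
    ∃ D' : Module.End ℤ M, D = k • D' := by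
  choose g hg using h
  have hinj : Function.Injective fun y : M => k • y := zsmul_right_injective hk
  refine ⟨{ toFun := g, map_add' := fun x y => ?_, map_smul' := fun a x => ?_ }, ?_⟩
  · apply hinj
    show k • g (x + y) = k • (g x + g y)
    rw [smul_add, ← hg, ← hg, ← hg, map_add]
  · apply hinj
    show k • g (a • x) = k • ((RingHom.id ℤ) a • g x)
    rw [RingHom.id_apply, smul_comm k a (g x), ← hg, ← hg, map_smul]
  · refine LinearMap.ext fun x => ?_
    rw [LinearMap.smul_apply]
    exact hg x

/-- `End_ℤ(M)` is Noetherian for a finite `ℤ`-module `M`. -/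
theorem isNoetherian_end (M : Type*) [AddCommGroup M] [Module.Finite ℤ M] :
    IsNoetherian ℤ (Module.End ℤ M) := by
  obtain ⟨s, hs⟩ := (Module.finite_def.mp (inferInstance : Module.Finite ℤ M))
  have : IsNoetherian ℤ M := isNoetherian_of_isNoetherianRing_of_finite ℤ M
  let ev : Module.End ℤ M →ₗ[ℤ] (s → M) :=
    { toFun := fun D i => D (i : M)
      map_add' := fun _ _ => rfl
      map_smul' := fun _ _ => rfl }
  have hinj : Function.Injective ev := by
    intro D D' h
    refine LinearMap.ext_on_range (v := fun i : s => (i : M)) ?_ fun i => congrFun h i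
    rw [Subtype.range_coe_subtype]
    exact hs
  exact isNoetherian_of_injective ev hinj

/-- **(AR).** `M` a finite torsion-free `ℤ`-module, `A` a submodule of `End_ℤ(M)`, `p ≠ 0`:
there is `c` such that every `D ∈ A` with `D M ⊆ p ^ (m + c) M` is `p ^ m` times an element
of `A`. -/
theorem exists_sat_exponent_end (M : Type*) [AddCommGroup M] [Module.Finite ℤ M]
    [IsAddTorsionFree M] (A : Submodule ℤ (Module.End ℤ M)) {p : ℤ} (hp : p ≠ 0) :
    ∃ c : ℕ, ∀ (m : ℕ) (D : Module.End ℤ M), D ∈ A →
      (∀ x : M, ∃ y : M, D x = p ^ (m + c) • y) → ∃ D' ∈ A, D = p ^ m • D' := by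
  have := isNoetherian_end M
  obtain ⟨c, hc⟩ := exists_sat_exponent A p
  refine ⟨c, fun m D hD h => ?_⟩
  obtain ⟨x, rfl⟩ := exists_smul_eq_of_forall (pow_ne_zero _ hp) D h
  refine ⟨p ^ c • x, hc m x hD, ?_⟩
  rw [smul_smul, ← pow_add]

end Fermat.Agent.S31.H75
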